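import Fermat.Prelude.Def_Algebra_PatchingDatum
import Mathlib.LinearAlgebra.FreeModule.Basic
import Mathlib.LinearAlgebra.Basis.Basic

set_option autoImplicit false

namespace Fermat.Agent.S57

open Module

/-- If `x` lies in `I • ⊤` then all its coordinates in a basis lie in `I`. -/
theorem repr_mem_of_mem_smul_top {A : Type} [CommRing A] {N : Type} [AddCommGroup N] [Module A N]
    {ι : Type} (B : Basis ι A N) (I : Ideal A) {x : N}
    (hx : x ∈ I • (⊤ : Submodule A N)) (i : ι) : B.repr x i ∈ I := by
  rw [← B.span_eq, Submodule.mem_ideal_smul_span_iff_exists_sum] at hx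
  obtain ⟨a, ha, rfl⟩ := hx
  have : B.repr (a.sum fun i c => c • B i) = a := by
    have h := B.repr_linearCombination a
    simpa [Finsupp.linearCombination_apply] using h
  rw [this]
  exact ha i

/-- The conclusion of the patching descent step, once the patched module is known to be free. -/
theorem conclusion_of_free {𝒪 : Type} [CommRing 𝒪] {r : ℕ} {R : Type} [CommRing R] [Algebra 𝒪 R]
    {M : Type} [AddCommGroup M] [Module R M] [Nontrivial M]
    {J : Ideal (MvPowerSeries (Fin r) 𝒪)} (L : Algebra.PatchingLevel 𝒪 r R M J)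
    (hfree : Module.Free (MvPowerSeries (Fin r) 𝒪) L.N) :
    Module.Free R M ∧ Module.annihilator R M = ⊥ ∧
      RingHom.ker L.ψ = Ideal.span (Set.range fun i : Fin r => L.φ (MvPowerSeries.X i)) := by
  classical
  set I : Ideal (MvPowerSeries (Fin r) 𝒪) :=
    Ideal.span (Set.range fun i : Fin r => L.φ (MvPowerSeries.X i)) with hI
  let B := Module.Free.chooseBasis (MvPowerSeries (Fin r) 𝒪) L.N
  -- `N` is nontrivial
  have hNnt : Nontrivial L.N := by
    obtain ⟨m, hm⟩ := exists_ne (0 : M)
    obtain ⟨n, rfl⟩ := L.π_surjective m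
    exact ⟨⟨n, 0, fun h => hm (by rw [h, map_zero])⟩⟩
  have hle : I ≤ RingHom.ker L.ψ := by
    rw [hI, Ideal.span_le]
    rintro _ ⟨i, rfl⟩
    exact L.ψ_φ_X i
  have hker : ∀ x : L.N, L.π x = 0 → ∀ i, B.repr x i ∈ I := fun x hx i =>
    repr_mem_of_mem_smul_top B I ((L.ker_π x).mp hx) i
  have hπsum : ∀ (s : Finset (Module.Free.ChooseBasisIndex (MvPowerSeries (Fin r) 𝒪) L.N))
      (a : Module.Free.ChooseBasisIndex (MvPowerSeries (Fin r) 𝒪) L.N → MvPowerSeries (Fin r) 𝒪),
      L.π (∑ i ∈ s, a i • B i) = ∑ i ∈ s, L.ψ (a i) • L.π (B i) := by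
    intro s a
    rw [map_sum]
    exact Finset.sum_congr rfl fun i _ => L.π_smul _ _
  -- the kernel of ψ
  have hkerψ : RingHom.ker L.ψ = I := by
    refine le_antisymm ?_ hle
    intro f hf
    obtain ⟨j⟩ : Nonempty (Module.Free.ChooseBasisIndex (MvPowerSeries (Fin r) 𝒪) L.N) :=
      B.index_nonempty
    have h0 : L.π (f • B j) = 0 := by
      rw [L.π_smul, (RingHom.mem_ker).mp hf, zero_smul]
    have := hker _ h0 j
    simpa using this
  -- basis of `M`
  have hli : LinearIndependent R (fun i => L.π (B i)) := by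
    rw [linearIndependent_iff']
    intro s g hg i hi
    choose a ha using fun i => L.ψ_surjective (g i)
    have h0 : L.π (∑ i ∈ s, a i • B i) = 0 := by
      rw [hπsum, ← hg]
      exact Finset.sum_congr rfl fun i _ => by rw [ha]
    have h1 := hker _ h0 i
    have h2 : B.repr (∑ i ∈ s, a i • B i) i = a i := by
      simp [map_sum, Finsupp.single_apply, hi]
    rw [h2] at h1
    rw [← ha i]
    exact hle h1
  have hsp : ⊤ ≤ Submodule.span R (Set.range fun i => L.π (B i)) := by
    intro m _
    obtain ⟨n, rfl⟩ := L.π_surjective m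
    have hn : n = ∑ i ∈ (B.repr n).support, (B.repr n) i • B i := by
      conv_lhs => rw [← B.linearCombination_repr n]
      rfl
    rw [hn, hπsum]
    exact Submodule.sum_mem _ fun i _ =>
      Submodule.smul_mem _ _ (Submodule.subset_span ⟨i, rfl⟩)
  have hfreeM : Module.Free R M := Module.Free.of_basis (Basis.mk hli hsp)
  refine ⟨hfreeM, ?_, hkerψ⟩
  rw [Module.annihilator_eq_bot]
  infer_instance

end Fermat.Agent.S57
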