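import Mathlib.RingTheory.Regular.ProjectiveDimension
import Mathlib.RingTheory.FiniteLength
import Mathlib.RingTheory.LocalRing.Module
import Mathlib.RingTheory.SimpleModule.Basic

set_option autoImplicit false

namespace Fermat.Agent.S57

open CategoryTheory IsLocalRing RingTheory.Sequence

variable {A : Type} [CommRing A] [IsLocalRing A]

/-- Over a local ring, if the residue field has projective dimension `< n`, so does every module of
finite length. -/
theorem hasProjectiveDimensionLT_of_isFiniteLength (n : ℕ)
    (hk : HasProjectiveDimensionLT (ModuleCat.of A (A ⧸ maximalIdeal A)) n)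
    (L : Type) [AddCommGroup L] [Module A L] (hL : IsFiniteLength A L) :
    HasProjectiveDimensionLT (ModuleCat.of A L) n := by
  induction hL with
  | @of_subsingleton L _ _ _ =>
    have : Limits.IsZero (ModuleCat.of A L) := ModuleCat.isZero_of_subsingleton _
    have := this.hasProjectiveDimensionLT_zero
    exact hasProjectiveDimensionLT_of_ge _ 0 n (Nat.zero_le _)
  | @of_simple_quotient L _ _ P hsimple hP ih =>
    -- short exact sequence `0 → P → L → L ⧸ P → 0`
    have hS : (P.mkQ).shortComplexKer.ShortExact :=
      LinearMap.shortExact_shortComplexKer (Submodule.mkQ_surjective P)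
    -- the quotient is isomorphic to the residue field
    obtain ⟨I, hI, ⟨e⟩⟩ := isSimpleModule_iff_quot_maximal.mp hsimple
    have hIm : I = maximalIdeal A := IsLocalRing.eq_maximalIdeal hI
    subst hIm
    have h3 : HasProjectiveDimensionLT (ModuleCat.of A (L ⧸ P)) n :=
      hasProjectiveDimensionLT_of_iso (e.symm.toModuleIso) n
    -- the kernel of `mkQ` is `P`
    have e1 : (LinearMap.ker P.mkQ) ≃ₗ[A] P := LinearEquiv.ofEq _ _ (Submodule.ker_mkQ P)
    have h1 : HasProjectiveDimensionLT (ModuleCat.of A (LinearMap.ker P.mkQ)) n :=
      hasProjectiveDimensionLT_of_iso (e1.symm.toModuleIso) n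
    exact hS.hasProjectiveDimensionLT_X₂ n h1 h3

/-- A finitely generated module over a Noetherian local ring whose maximal ideal is generated by a
regular sequence `xs`, admitting a weakly regular sequence `ys` in the maximal ideal of length at
least that of `xs` with `N ⧸ ys N` of finite length, is free. -/
theorem free_of_weaklyRegular [IsNoetherianRing A]
    (xs : List A) (hxs : IsRegular A xs) (hmax : Ideal.ofList xs = maximalIdeal A)
    (N : Type) [AddCommGroup N] [Module A N] [Module.Finite A N]
    (ys : List A) (hys : IsWeaklyRegular N ys) (hmem : ∀ y ∈ ys, y ∈ maximalIdeal A)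
    (hlen : xs.length ≤ ys.length)
    (hfl : IsFiniteLength A (N ⧸ Ideal.ofList ys • (⊤ : Submodule A N))) :
    Module.Free A N := by
  rcases subsingleton_or_nontrivial N with hN | hN
  · exact Module.Free.of_subsingleton A N
  -- projective dimension of the residue field
  have hk : projectiveDimension (ModuleCat.of A (A ⧸ maximalIdeal A)) = xs.length := by
    have h := ModuleCat.projectiveDimension_quotient_eq_length (R := A) xs hxs
    rw [← h, hmax]
    exact projectiveDimension_eq_of_iso
      ((Shrink.linearEquiv A (A ⧸ maximalIdeal A)).symm.toModuleIso)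
  have hk' : HasProjectiveDimensionLT (ModuleCat.of A (A ⧸ maximalIdeal A)) (xs.length + 1) := by
    rw [← projectiveDimension_lt_iff, hk]
    exact_mod_cast Nat.lt_succ_self _
  have hL := hasProjectiveDimensionLT_of_isFiniteLength (xs.length + 1) hk' _ hfl
  have hpd := ModuleCat.projectiveDimension_quotient_eq_add_length_of_isWeaklyRegular
    (ModuleCat.of A N) ys hys hmem
  have hle : projectiveDimension (ModuleCat.of A N) + (ys.length : ℕ) ≤ (0 : WithBot ℕ∞) + (ys.length : ℕ) := by
    rw [← hpd, zero_add]
    have h1 : projectiveDimension
        (ModuleCat.of A (N ⧸ Ideal.ofList ys • (⊤ : Submodule A N))) ≤ (xs.length : ℕ) :=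
      (projectiveDimension_le_iff _ _).mpr hL
    refine h1.trans ?_
    exact_mod_cast hlen
  have h0 : projectiveDimension (ModuleCat.of A N) ≤ ((0 : ℕ) : WithBot ℕ∞) := by
    have := ENat.WithBot.add_le_add_natCast_right_iff.mp hle
    simpa using this
  have hproj : Projective (ModuleCat.of A N) := by
    rw [projective_iff_hasProjectiveDimensionLT_one]
    exact (projectiveDimension_le_iff _ 0).mp h0
  have : Module.Projective A N := (IsProjective.iff_projective N).mpr hproj
  exact Module.free_of_flat_of_isLocalRing

end Fermat.Agent.S57
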