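import Mathlib.RingTheory.Artinian.Module
import Mathlib.RingTheory.FiniteLength
import Mathlib.Algebra.Module.Torsion.Basic
import Mathlib.RingTheory.Ideal.Quotient.Basic
import Mathlib.RingTheory.Finiteness.Basic

set_option autoImplicit false
set_option linter.style.haveILetI false

namespace Fermat.Agent.S57

/-- An `A`-module which, as a module over a base ring `𝒪` with `(ϖ)` maximal, is finitely generated
and killed by `ϖ`, is Artinian over `A`. -/
theorem isArtinian_of_span_of_torsion {𝒪 A Q : Type} [CommRing 𝒪] [CommRing A] [Algebra 𝒪 A]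
    [AddCommGroup Q] [Module A Q] (ϖ : 𝒪) (hmax : (Ideal.span {ϖ}).IsMaximal)
    (hϖ : ∀ q : Q, (algebraMap 𝒪 A ϖ) • q = 0) {d : ℕ} (b : Fin d → Q)
    (hgen : ∀ q : Q, ∃ c : Fin d → 𝒪, q = ∑ i, (algebraMap 𝒪 A (c i)) • b i) :
    IsArtinian A Q := by
  classical
  letI : Module 𝒪 Q := Module.compHom Q (algebraMap 𝒪 A)
  haveI : IsScalarTower 𝒪 A Q := IsScalarTower.of_algebraMap_smul fun _ _ => rfl
  have htors : Module.IsTorsionBySet 𝒪 Q (Ideal.span {ϖ} : Ideal 𝒪) := by
    rw [← Ideal.submodule_span_eq, Module.isTorsionBySet_span_singleton_iff]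
    intro q
    exact hϖ q
  letI := htors.module
  letI : Field (𝒪 ⧸ Ideal.span {ϖ}) := Ideal.Quotient.field _
  haveI : Module.Finite 𝒪 Q := by
    refine Module.finite_def.mpr ⟨Finset.univ.image b, ?_⟩
    rw [eq_top_iff]
    intro q _
    obtain ⟨c, rfl⟩ := hgen q
    refine Submodule.sum_mem _ fun i _ => ?_
    exact Submodule.smul_mem _ (c i) (Submodule.subset_span (by simp))
  haveI : Module.Finite (𝒪 ⧸ Ideal.span {ϖ}) Q := Module.Finite.of_restrictScalars_finite 𝒪 _ Q
  haveI : IsArtinian (𝒪 ⧸ Ideal.span {ϖ}) Q := inferInstance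
  haveI : IsArtinian 𝒪 Q :=
    isArtinian_of_surjective_algebraMap (R := 𝒪 ⧸ Ideal.span {ϖ}) (Ideal.Quotient.mk_surjective)
  exact isArtinian_of_tower 𝒪 inferInstance

end Fermat.Agent.S57
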