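import Mathlib.RingTheory.MvPowerSeries.Basic
import Mathlib.RingTheory.MvPowerSeries.Inverse
import Mathlib.RingTheory.Regular.RegularSequence
import Mathlib.RingTheory.Ideal.Operations
import Mathlib.RingTheory.DiscreteValuationRing.Basic

set_option autoImplicit false

namespace Fermat.Agent.S57

open MvPowerSeries

variable (A : Type*) [CommRing A] (r : ℕ)

/-- The ideal of power series all of whose coefficients at monomials not involving the first
`i` variables vanish. It equals `(X_0, …, X_{i-1})`. -/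
def vanIdeal (i : ℕ) : Ideal (MvPowerSeries (Fin r) A) where
  carrier := {f | ∀ m : Fin r →₀ ℕ, (∀ j : Fin r, j.val < i → m j = 0) → coeff m f = 0}
  zero_mem' := by intro m _; simp
  add_mem' := by
    intro f g hf hg m hm
    simp [hf m hm, hg m hm]
  smul_mem' := by
    classical
    intro c f hf m hm
    rw [smul_eq_mul, coeff_mul]
    apply Finset.sum_eq_zero
    rintro ⟨p, q⟩ hpq
    rw [Finset.mem_antidiagonal] at hpq
    have hq : coeff q f = 0 := by
      apply hf
      intro j hj
      have := hm j hj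
      rw [← hpq] at this
      simp only [Finsupp.coe_add, Pi.add_apply, Nat.add_eq_zero_iff] at this
      exact this.2
    simp [hq]

variable {A r}

theorem mem_vanIdeal {i : ℕ} {f : MvPowerSeries (Fin r) A} :
    f ∈ vanIdeal A r i ↔
      ∀ m : Fin r →₀ ℕ, (∀ j : Fin r, j.val < i → m j = 0) → coeff m f = 0 :=
  Iff.rfl

theorem vanIdeal_zero : vanIdeal A r 0 = ⊥ := by
  rw [eq_bot_iff]
  intro f hf
  rw [Ideal.mem_bot]
  ext m
  simpa using hf m (by simp)

theorem vanIdeal_mono {i j : ℕ} (h : i ≤ j) : vanIdeal A r i ≤ vanIdeal A r j := by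
  intro f hf m hm
  exact hf m (fun k hk => hm k (lt_of_lt_of_le hk h))

theorem X_mem_vanIdeal {i : ℕ} (hi : i < r) :
    (X ⟨i, hi⟩ : MvPowerSeries (Fin r) A) ∈ vanIdeal A r (i + 1) := by
  classical
  intro m hm
  rw [coeff_X, if_neg]
  intro h
  have := hm ⟨i, hi⟩ (by simp)
  rw [h] at this
  simp at this

theorem coeff_X_mul_add_single (s : Fin r) (m : Fin r →₀ ℕ) (f : MvPowerSeries (Fin r) A) :
    coeff (m + Finsupp.single s 1) (X s * f) = coeff m f := by
  rw [X_def, add_comm, coeff_add_monomial_mul, one_mul]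

theorem coeff_X_mul_of_eq_zero (s : Fin r) (m : Fin r →₀ ℕ) (hm : m s = 0)
    (f : MvPowerSeries (Fin r) A) :
    coeff m (X s * f) = 0 := by
  rw [X_def, coeff_monomial_mul, if_neg]
  intro h
  have := h s
  simp [hm] at this

theorem mem_vanIdeal_of_X_mul_mem {i : ℕ} (hi : i < r) {f : MvPowerSeries (Fin r) A}
    (h : X ⟨i, hi⟩ * f ∈ vanIdeal A r i) : f ∈ vanIdeal A r i := by
  intro m hm
  rw [← coeff_X_mul_add_single ⟨i, hi⟩ m f]
  apply h
  intro j hj
  have hne : (⟨i, hi⟩ : Fin r) ≠ j := by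
    intro h'
    rw [← h'] at hj
    simp at hj
  simp [hm j hj, Finsupp.single_eq_of_ne' hne]

theorem mem_vanIdeal_of_C_mul_mem {i : ℕ} {a : A} (ha : IsSMulRegular A a)
    {f : MvPowerSeries (Fin r) A}
    (h : C a * f ∈ vanIdeal A r i) : f ∈ vanIdeal A r i := by
  intro m hm
  have := h m hm
  rw [coeff_C_mul] at this
  apply ha
  simpa using this

theorem vanIdeal_succ {i : ℕ} (hi : i < r) :
    vanIdeal A r (i + 1) = vanIdeal A r i ⊔ Ideal.span {X ⟨i, hi⟩} := by
  classical
  apply le_antisymm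
  · intro f hf
    -- g collects the coefficients divisible by X_i among monomials not involving X_j, j < i
    let g : MvPowerSeries (Fin r) A := fun m =>
      if (∀ j : Fin r, j.val < i → m j = 0) then coeff (m + Finsupp.single ⟨i, hi⟩ 1) f else 0
    have hg : ∀ m, coeff m g =
        if (∀ j : Fin r, j.val < i → m j = 0) then
          coeff (m + Finsupp.single ⟨i, hi⟩ 1) f else 0 := fun m => rfl
    have key : f - X ⟨i, hi⟩ * g ∈ vanIdeal A r i := by
      intro m hm
      rw [map_sub, sub_eq_zero]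
      by_cases hmi : m ⟨i, hi⟩ = 0
      · rw [coeff_X_mul_of_eq_zero _ _ hmi]
        apply hf
        intro j hj
        rcases Nat.lt_succ_iff_lt_or_eq.mp hj with h | h
        · exact hm j h
        · have : j = ⟨i, hi⟩ := Fin.ext h
          rw [this]; exact hmi
      · have hm' : m = (m - Finsupp.single ⟨i, hi⟩ 1) + Finsupp.single ⟨i, hi⟩ 1 := by
          ext j
          by_cases hj : j = ⟨i, hi⟩
          · subst hj
            simp only [Finsupp.coe_add, Finsupp.coe_tsub, Pi.add_apply, Pi.sub_apply,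
              Finsupp.single_eq_same]
            omega
          · simp [Finsupp.single_eq_of_ne hj]
        conv_rhs => rw [hm']
        rw [coeff_X_mul_add_single, hg, if_pos, ← hm']
        intro j hj
        simp [hm j hj]
    have : f = (f - X ⟨i, hi⟩ * g) + X ⟨i, hi⟩ * g := by ring
    rw [this]
    apply Ideal.add_mem
    · exact Ideal.mem_sup_left key
    · apply Ideal.mem_sup_right
      exact Ideal.mul_mem_right _ _ (Ideal.subset_span rfl)
  · apply sup_le
    · exact vanIdeal_mono (Nat.le_succ i)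
    · rw [Ideal.span_le]
      intro x hx
      rw [Set.mem_singleton_iff] at hx
      rw [hx]
      exact X_mem_vanIdeal hi


theorem ofList_take_ofFn_X {i : ℕ} (hi : i ≤ r) :
    Ideal.ofList ((List.ofFn (fun j : Fin r => (X j : MvPowerSeries (Fin r) A))).take i) =
      vanIdeal A r i := by
  induction i with
  | zero => simp [vanIdeal_zero]
  | succ i ih =>
    have hi' : i < r := hi
    have hlen : i < (List.ofFn (fun j : Fin r => (X j : MvPowerSeries (Fin r) A))).length := by
      simpa using hi'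
    rw [List.take_succ_eq_append_getElem hlen, Ideal.ofList_append, ih (le_of_lt hi'),
      Ideal.ofList_singleton, vanIdeal_succ hi']
    congr 2
    simp

theorem ofList_ofFn_X :
    Ideal.ofList (List.ofFn (fun j : Fin r => (X j : MvPowerSeries (Fin r) A))) =
      vanIdeal A r r := by
  have := ofList_take_ofFn_X (A := A) (r := r) (i := r) le_rfl
  rwa [List.take_of_length_le (by simp)] at this

theorem mem_vanIdeal_self_iff {f : MvPowerSeries (Fin r) A} :
    f ∈ vanIdeal A r r ↔ constantCoeff f = 0 := by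
  constructor
  · intro h
    exact h 0 (by simp)
  · intro h m hm
    have : m = 0 := by
      ext j
      exact hm j j.isLt
    rw [this]
    exact h

theorem isWeaklyRegular_ofFn_X :
    RingTheory.Sequence.IsWeaklyRegular (MvPowerSeries (Fin r) A)
      (List.ofFn (fun j : Fin r => (X j : MvPowerSeries (Fin r) A))) := by
  rw [RingTheory.Sequence.isWeaklyRegular_iff]
  intro i hi
  have hi' : i < r := by simpa using hi
  rw [isSMulRegular_quotient_iff_mem_of_smul_mem]
  intro f hf
  rw [smul_eq_mul, Ideal.mul_top, ofList_take_ofFn_X (le_of_lt hi')] at hf ⊢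
  have hX : (List.ofFn (fun j : Fin r => (X j : MvPowerSeries (Fin r) A)))[i] = X ⟨i, hi'⟩ := by
    simp
  rw [hX, smul_eq_mul] at hf
  exact mem_vanIdeal_of_X_mul_mem hi' hf

theorem isWeaklyRegular_ofFn_X_append_C {a : A} (ha : IsSMulRegular A a) :
    RingTheory.Sequence.IsWeaklyRegular (MvPowerSeries (Fin r) A)
      (List.ofFn (fun j : Fin r => (X j : MvPowerSeries (Fin r) A)) ++ [C a]) := by
  rw [RingTheory.Sequence.isWeaklyRegular_append_iff]
  refine ⟨isWeaklyRegular_ofFn_X, ?_⟩
  rw [RingTheory.Sequence.isWeaklyRegular_singleton_iff,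
    isSMulRegular_quotient_iff_mem_of_smul_mem]
  intro f hf
  rw [smul_eq_mul, Ideal.mul_top, ofList_ofFn_X] at hf ⊢
  rw [smul_eq_mul] at hf
  exact mem_vanIdeal_of_C_mul_mem ha hf


theorem ofList_ofFn_X_append_C_eq_maximalIdeal [IsLocalRing A] {a : A}
    (ha : IsLocalRing.maximalIdeal A = Ideal.span {a}) :
    Ideal.ofList (List.ofFn (fun j : Fin r => (X j : MvPowerSeries (Fin r) A)) ++ [C a]) =
      IsLocalRing.maximalIdeal (MvPowerSeries (Fin r) A) := by
  rw [Ideal.ofList_append, ofList_ofFn_X, Ideal.ofList_singleton]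
  ext f
  rw [IsLocalRing.mem_maximalIdeal, mem_nonunits_iff, isUnit_iff_constantCoeff,
    ← mem_nonunits_iff, ← IsLocalRing.mem_maximalIdeal, ha, Ideal.mem_span_singleton']
  constructor
  · intro hf
    rw [Submodule.mem_sup] at hf
    obtain ⟨g, hg, h, hh, rfl⟩ := hf
    rw [Ideal.mem_span_singleton'] at hh
    obtain ⟨c, rfl⟩ := hh
    refine ⟨constantCoeff c, ?_⟩
    rw [map_add, mem_vanIdeal_self_iff.mp hg, zero_add, map_mul, constantCoeff_C]
  · rintro ⟨c, hc⟩
    have : f = (f - C c * C a) + C c * C a := by ring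
    rw [this]
    apply Ideal.add_mem
    · apply Ideal.mem_sup_left
      rw [mem_vanIdeal_self_iff, map_sub, map_mul, constantCoeff_C, constantCoeff_C, hc, sub_self]
    · apply Ideal.mem_sup_right
      exact Ideal.mul_mem_left _ _ (Ideal.subset_span rfl)

section DVR

variable {𝒪 : Type*} [CommRing 𝒪] [IsDomain 𝒪] [IsDiscreteValuationRing 𝒪]

theorem ofList_X_pi_eq_maximalIdeal (r : ℕ) {ϖ : 𝒪} (hϖ : Irreducible ϖ) :
    Ideal.ofList (List.ofFn (fun i : Fin r => (X i : MvPowerSeries (Fin r) 𝒪)) ++ [C ϖ]) =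
      IsLocalRing.maximalIdeal (MvPowerSeries (Fin r) 𝒪) :=
  ofList_ofFn_X_append_C_eq_maximalIdeal hϖ.maximalIdeal_eq

theorem isWeaklyRegular_X_pi (r : ℕ) {ϖ : 𝒪} (hϖ : Irreducible ϖ) :
    RingTheory.Sequence.IsWeaklyRegular (MvPowerSeries (Fin r) 𝒪)
      (List.ofFn (fun i : Fin r => (X i : MvPowerSeries (Fin r) 𝒪)) ++ [C ϖ]) := by
  apply isWeaklyRegular_ofFn_X_append_C
  intro x y hxy
  simp only [smul_eq_mul] at hxy
  exact mul_left_cancel₀ hϖ.ne_zero hxy

theorem isRegular_X_pi (r : ℕ) {ϖ : 𝒪} (hϖ : Irreducible ϖ) :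
    RingTheory.Sequence.IsRegular (MvPowerSeries (Fin r) 𝒪)
      (List.ofFn (fun i : Fin r => (X i : MvPowerSeries (Fin r) 𝒪)) ++ [C ϖ]) := by
  refine ⟨isWeaklyRegular_X_pi r hϖ, ?_⟩
  rw [smul_eq_mul, Ideal.mul_top, ofList_X_pi_eq_maximalIdeal r hϖ]
  exact (IsLocalRing.maximalIdeal.isMaximal _).ne_top.symm

end DVR

end Fermat.Agent.S57
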