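import Fermat.Prelude.Def_Algebra_PatchingDatum
import Fermat.Agent.S57.PowerSeriesRegular
import Fermat.Agent.S57.Core
import Fermat.Agent.S57.FiniteLength
import Mathlib.RingTheory.MvPowerSeries.Equiv

set_option autoImplicit false
set_option linter.style.haveILetI false

namespace Fermat.Agent.S57

open MvPowerSeries RingTheory.Sequence

section Level

variable {𝒪 : Type} [CommRing 𝒪] {r : ℕ} {R : Type} [CommRing R] [Algebra 𝒪 R]
    {M : Type} [AddCommGroup M] [Module R M] (L : Algebra.PatchingLevel 𝒪 r R M ⊥)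

/-- The additive map `c ↦ ∑ φ(c i) • b i`. -/
noncomputable def levelHom : (Fin L.d → MvPowerSeries (Fin r) 𝒪) →+ L.N where
  toFun c := ∑ i, L.φ (c i) • L.b i
  map_zero' := by simp
  map_add' c c' := by simp [add_smul, Finset.sum_add_distrib]

theorem levelHom_apply (c : Fin L.d → MvPowerSeries (Fin r) 𝒪) :
    levelHom L c = ∑ i, L.φ (c i) • L.b i := rfl

theorem levelHom_bijective : Function.Bijective (levelHom L) := by
  constructor
  · rw [injective_iff_map_eq_zero]
    intro c hc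
    have := (L.b_rel c).mp hc
    funext i
    exact (Ideal.mem_bot).mp (this i)
  · intro x
    obtain ⟨c, hc⟩ := L.b_span x
    exact ⟨c, hc.symm⟩

/-- The additive equivalence `(Fin d → A) ≃+ N`, `c ↦ ∑ φ(c i) • b i`. -/
noncomputable def levelEquiv : (Fin L.d → MvPowerSeries (Fin r) 𝒪) ≃+ L.N :=
  AddEquiv.ofBijective (levelHom L) (levelHom_bijective L)

theorem levelEquiv_apply (c : Fin L.d → MvPowerSeries (Fin r) 𝒪) :
    levelEquiv L c = ∑ i, L.φ (c i) • L.b i := rfl

theorem levelEquiv_smul (x : MvPowerSeries (Fin r) 𝒪) (c : Fin L.d → MvPowerSeries (Fin r) 𝒪) :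
    levelEquiv L (x • c) = L.φ x • levelEquiv L c := by
  simp only [levelEquiv_apply, Pi.smul_apply, smul_eq_mul, map_mul, Finset.smul_sum, mul_smul]

theorem level_finite : Module.Finite (MvPowerSeries (Fin r) 𝒪) L.N := by
  classical
  refine Module.finite_def.mpr ⟨Finset.univ.image L.b, ?_⟩
  rw [eq_top_iff]
  intro x _
  obtain ⟨c, rfl⟩ := L.b_span x
  refine Submodule.sum_mem _ fun i _ => ?_
  exact Submodule.smul_mem _ _ (Submodule.subset_span (by simp))

theorem level_isWeaklyRegular (xs : List (MvPowerSeries (Fin r) 𝒪))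
    (hxs : IsWeaklyRegular (MvPowerSeries (Fin r) 𝒪) xs) :
    IsWeaklyRegular L.N (xs.map L.φ) := by
  have h1 : IsWeaklyRegular (Fin L.d → MvPowerSeries (Fin r) 𝒪) xs := by
    have h := hxs.isWeaklyRegular_lTensor (M₂ := Fin L.d → MvPowerSeries (Fin r) 𝒪)
    exact ((TensorProduct.rid (MvPowerSeries (Fin r) 𝒪)
      (Fin L.d → MvPowerSeries (Fin r) 𝒪)).isWeaklyRegular_congr xs).mp h
  refine (AddEquiv.isWeaklyRegular_congr (e := levelEquiv L) ?_).mp h1
  exact List.forall₂_map_right_iff.mpr <| List.forall₂_same.mpr fun x _ c => levelEquiv_smul L x c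

end Level

section DVR

variable {𝒪 : Type} [CommRing 𝒪] [IsDomain 𝒪] [IsDiscreteValuationRing 𝒪]
    {r : ℕ} {R : Type} [CommRing R] [Algebra 𝒪 R]
    {M : Type} [AddCommGroup M] [Module R M] (L : Algebra.PatchingLevel 𝒪 r R M ⊥)

/-- The regular system of parameters `X_0, …, X_{r-1}, ϖ` of `𝒪⟦X⟧`. -/
noncomputable def paramList (r : ℕ) (ϖ : 𝒪) : List (MvPowerSeries (Fin r) 𝒪) :=
  List.ofFn (fun i : Fin r => (X i : MvPowerSeries (Fin r) 𝒪)) ++ [C ϖ]

theorem paramList_length (r : ℕ) (ϖ : 𝒪) : (paramList r ϖ).length = r + 1 := by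
  simp [paramList]

theorem mem_paramList {r : ℕ} {ϖ : 𝒪} {x : MvPowerSeries (Fin r) 𝒪} :
    x ∈ paramList r ϖ ↔ (∃ i : Fin r, x = X i) ∨ x = C ϖ := by
  simp [paramList, List.mem_ofFn, eq_comm]

theorem level_phi_C (a : 𝒪) : L.φ (C a) = C a := by
  have := L.φ.commutes a
  simpa [MvPowerSeries.algebraMap_apply] using this

theorem level_mem_maximalIdeal [Nontrivial M] {ϖ : 𝒪} (hϖ : Irreducible ϖ) :
    ∀ y ∈ (paramList r ϖ).map L.φ, y ∈ IsLocalRing.maximalIdeal (MvPowerSeries (Fin r) 𝒪) := by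
  have hR : Nontrivial R := Module.nontrivial R M
  intro y hy
  obtain ⟨x, hx, rfl⟩ := List.mem_map.mp hy
  rcases mem_paramList.mp hx with ⟨i, rfl⟩ | rfl
  · rw [IsLocalRing.mem_maximalIdeal, mem_nonunits_iff]
    intro hu
    have := hu.map L.ψ
    rw [L.ψ_φ_X i] at this
    exact not_isUnit_zero this
  · rw [level_phi_C, ← ofList_X_pi_eq_maximalIdeal r hϖ]
    exact Ideal.subset_span (by simp)

theorem level_phi_sub_C_mem (ϖ : 𝒪) (f : MvPowerSeries (Fin r) 𝒪) :
    L.φ f - C (constantCoeff f) ∈ Ideal.ofList ((paramList r ϖ).map L.φ) := by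
  have h1 : f - C (constantCoeff f) ∈ Ideal.ofList (paramList r ϖ) := by
    rw [paramList, Ideal.ofList_append]
    refine Ideal.mem_sup_left ?_
    rw [ofList_ofFn_X, mem_vanIdeal_self_iff]
    simp
  have h2 := Ideal.mem_map_of_mem L.φ.toRingHom h1
  rw [Ideal.map_ofList] at h2
  simpa [level_phi_C] using h2

theorem level_isFiniteLength {ϖ : 𝒪} (hϖ : Irreducible ϖ) :
    IsFiniteLength (MvPowerSeries (Fin r) 𝒪)
      (L.N ⧸ Ideal.ofList ((paramList r ϖ).map L.φ) • (⊤ : Submodule (MvPowerSeries (Fin r) 𝒪) L.N)) := by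
  haveI := level_finite L
  rw [isFiniteLength_iff_isNoetherian_isArtinian]
  refine ⟨inferInstance, ?_⟩
  have hmax : (Ideal.span {ϖ} : Ideal 𝒪).IsMaximal := by
    rw [← hϖ.maximalIdeal_eq]; infer_instance
  set P := Ideal.ofList ((paramList r ϖ).map L.φ) • (⊤ : Submodule (MvPowerSeries (Fin r) 𝒪) L.N)
    with hP
  have hCmem : C ϖ ∈ Ideal.ofList ((paramList r ϖ).map L.φ) := by
    refine Ideal.subset_span ?_
    refine List.mem_map.mpr ⟨C ϖ, by simp [paramList], level_phi_C L ϖ⟩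
  refine isArtinian_of_span_of_torsion (𝒪 := 𝒪) ϖ hmax ?_ (fun i => P.mkQ (L.b i)) ?_
  · intro q
    obtain ⟨n, rfl⟩ := P.mkQ_surjective q
    rw [← map_smul, Submodule.mkQ_apply, Submodule.Quotient.mk_eq_zero]
    rw [MvPowerSeries.algebraMap_apply, Algebra.algebraMap_self, RingHom.id_apply]
    exact Submodule.smul_mem_smul hCmem Submodule.mem_top
  · intro q
    obtain ⟨n, rfl⟩ := P.mkQ_surjective q
    obtain ⟨c, rfl⟩ := L.b_span n
    refine ⟨fun i => constantCoeff (c i), ?_⟩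
    rw [map_sum]
    refine Finset.sum_congr rfl fun i _ => ?_
    rw [← map_smul, Submodule.mkQ_apply, Submodule.mkQ_apply, Submodule.Quotient.eq, ← sub_smul]
    rw [MvPowerSeries.algebraMap_apply, Algebra.algebraMap_self, RingHom.id_apply]
    exact Submodule.smul_mem_smul (level_phi_sub_C_mem L ϖ (c i)) Submodule.mem_top

/-- The patched module is free over the power series ring. -/
theorem level_free [Nontrivial M] : Module.Free (MvPowerSeries (Fin r) 𝒪) L.N := by
  obtain ⟨ϖ, hϖ⟩ := IsDiscreteValuationRing.exists_irreducible 𝒪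
  haveI := level_finite L
  refine free_of_weaklyRegular (paramList r ϖ) (isRegular_X_pi r hϖ)
    (ofList_X_pi_eq_maximalIdeal r hϖ) L.N ((paramList r ϖ).map L.φ)
    (level_isWeaklyRegular L _ (isWeaklyRegular_X_pi r hϖ)) (level_mem_maximalIdeal L hϖ)
    (by simp) (level_isFiniteLength L hϖ)

end DVR

end Fermat.Agent.S57
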